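/-
C1 nodal core, instantiation, block R (owner helper94): the echelon data of `Inst.OO`, `Inst.red2`.

Elements of the Gauss ring need not have integral (not even bounded) expansions, so the coefficient
functionals are not bounded on the Gauss ring.  But `F` is the field of fractions of a subalgebra
`AA` all of whose nonzero elements are a constant times an integral series with nonzero reduction
(`Att`).  A finite dimensional subspace `V` of `F` has a common denominator `inc Q`, `red Q ≠ 0`,
with `V * inc Q ⊆ AA`, and the coefficient functionals of `z * inc Q` are bounded on the unit ball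
of `V`.
-/
import Fermat.Agent.S34.Nodal.Inst.Defs
import Fermat.Agent.S34.Nodal.EchelonRed

set_option autoImplicit false

noncomputable section

namespace Fermat.Agent.S34.Nodal.Inst.R

open ModularCurve Fermat.Agent.S18.Vert Module

variable {K : Type*} [Field K] (A : ValuationSubring K)
variable (F : IntermediateField K (LaurentSeries K))

/-- `F` is the field of fractions of the subalgebra `AA`, and the Gauss norm of every nonzero
element of `AA` is attained. -/
structure Att (AA : Subalgebra K (LaurentSeries K)) : Prop where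
  le : ∀ a ∈ AA, a ∈ F
  quot : ∀ f : F, ∃ a b : LaurentSeries K, a ∈ AA ∧ b ∈ AA ∧ b ≠ 0 ∧ (f : LaurentSeries K) * b = a
  scale : ∀ a ∈ AA, a ≠ 0 → ∃ (c : K) (P : LaurentSeries A), c ≠ 0 ∧ red A P ≠ 0 ∧
    a = algebraMap K (LaurentSeries K) c * inc A P

variable {A F}

namespace Att

variable {AA : Subalgebra K (LaurentSeries K)} (H : Att A F AA)

include H in
/-- normal form of a nonzero element of `AA`, with the integral series in `AA`. -/
theorem scale' {a : LaurentSeries K} (ha : a ∈ AA) (ha0 : a ≠ 0) :
    ∃ (c : K) (P : LaurentSeries A), c ≠ 0 ∧ red A P ≠ 0 ∧ inc A P ∈ AA ∧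
      a = algebraMap K (LaurentSeries K) c * inc A P := by
  obtain ⟨c, P, hc, hP, h⟩ := H.scale a ha ha0
  refine ⟨c, P, hc, hP, ?_, h⟩
  have : inc A P = algebraMap K (LaurentSeries K) c⁻¹ * a := by
    rw [h, ← mul_assoc, ← map_mul, inv_mul_cancel₀ hc, map_one, one_mul]
  rw [this]
  exact AA.mul_mem (AA.algebraMap_mem _) ha

include H in
/-- **Common denominator** of a finite dimensional subspace. -/
theorem exists_den (V : Submodule K F) [Module.Finite K V] :
    ∃ Q : LaurentSeries A, red A Q ≠ 0 ∧ inc A Q ∈ AA ∧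
      ∀ z : F, z ∈ V → (z : LaurentSeries K) * inc A Q ∈ AA := by
  classical
  obtain ⟨s, hs⟩ : V.FG := Module.Finite.iff_fg.mp inferInstance
  choose a b ha hb hb0 hab using H.quot
  set B : LaurentSeries K := ∏ f ∈ s, b f with hB
  have hBmem : B ∈ AA := Subalgebra.prod_mem _ fun f _ => hb f
  have hB0 : B ≠ 0 := Finset.prod_ne_zero_iff.mpr fun f _ => hb0 f
  let W : Submodule K F :=
    { carrier := {z | (z : LaurentSeries K) * B ∈ AA}
      add_mem' := by
        intro y z hy hz
        show ((y + z : F) : LaurentSeries K) * B ∈ AA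
        push_cast
        rw [add_mul]
        exact AA.add_mem hy hz
      zero_mem' := by
        show ((0 : F) : LaurentSeries K) * B ∈ AA
        push_cast
        rw [zero_mul]
        exact AA.zero_mem
      smul_mem' := by
        intro c z hz
        show ((c • z : F) : LaurentSeries K) * B ∈ AA
        rw [Algebra.smul_def]
        show algebraMap K (LaurentSeries K) c * (z : LaurentSeries K) * B ∈ AA
        rw [mul_assoc]
        exact AA.mul_mem (AA.algebraMap_mem c) hz }
  have hVW : V ≤ W := by
    rw [← hs, Submodule.span_le]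
    intro f hf
    show (f : LaurentSeries K) * B ∈ AA
    rw [hB, ← Finset.mul_prod_erase s b (Finset.mem_coe.mp hf), ← mul_assoc, hab]
    exact AA.mul_mem (ha f) (Subalgebra.prod_mem _ fun g _ => hb g)
  obtain ⟨c, Q, hc, hQ, hQmem, hBQ⟩ := H.scale' hBmem hB0
  refine ⟨Q, hQ, hQmem, fun z hz => ?_⟩
  have : inc A Q = algebraMap K (LaurentSeries K) c⁻¹ * B := by
    rw [hBQ, ← mul_assoc, ← map_mul, inv_mul_cancel₀ hc, map_one, one_mul]
  rw [this, mul_left_comm]
  exact AA.mul_mem (AA.algebraMap_mem _) (hVW hz)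

include H in
/-- A Gauss integral element times a denominator is an integral series. -/
theorem exists_inc_eq {z : F} (hz : z ∈ gaussSubring A F) {Q : LaurentSeries A}
    (hzQ : (z : LaurentSeries K) * inc A Q ∈ AA) :
    ∃ P : LaurentSeries A, (z : LaurentSeries K) * inc A Q = inc A P := by
  by_cases h0 : (z : LaurentSeries K) * inc A Q = 0
  · exact ⟨0, by rw [h0, map_zero]⟩
  obtain ⟨c, P₀, hc, hP₀, h⟩ := H.scale _ hzQ h0
  obtain ⟨P', Q', -, -, hQ', h'⟩ := hz
  by_cases hcA : c ∈ A
  · refine ⟨HahnSeries.C (⟨c, hcA⟩ : A) * P₀, ?_⟩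
    rw [map_mul, inc_C, h]
  · exfalso
    have hci : c⁻¹ ∈ A := (A.mem_or_inv_mem c).resolve_left hcA
    have hres : IsLocalRing.residue A ⟨c⁻¹, hci⟩ = 0 := by
      rw [IsLocalRing.residue_eq_zero_iff, IsLocalRing.mem_maximalIdeal, mem_nonunits_iff]
      intro hu
      obtain ⟨d, hd⟩ := isUnit_iff_exists_inv.mp hu
      apply hcA
      have hd' : c⁻¹ * (d : K) = 1 := congrArg Subtype.val hd
      have : (d : K) = c := by
        field_simp at hd'
        exact hd'
      rw [← this]
      exact d.2
    have e1 : inc A (P₀ * Q') = inc A (HahnSeries.C (⟨c⁻¹, hci⟩ : A) * (P' * Q)) := by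
      rw [map_mul, map_mul, map_mul, inc_C, ← h']
      have : inc A P₀ = algebraMap K (LaurentSeries K) c⁻¹ * ((z : LaurentSeries K) * inc A Q) := by
        rw [h, ← mul_assoc, ← map_mul, inv_mul_cancel₀ hc, map_one, one_mul]
      rw [this]
      ring
    have e2 := congrArg (red A) (inc_injective A e1)
    rw [map_mul, map_mul, red_C, hres, map_zero, zero_mul] at e2
    exact mul_ne_zero hP₀ hQ' e2

include H in
/-- **Gauss normalisation**: every nonzero element of `F` is a constant times an element of the
Gauss ring with nonzero residue. -/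
theorem exists_scaling {f : F} (hf : f ≠ 0) :
    ∃ (c : K) (h : algebraMap K F c * f ∈ gaussSubring A F), c ≠ 0 ∧ rho A F ⟨_, h⟩ ≠ 0 := by
  obtain ⟨a, b, ha, hb, hb0, hab⟩ := H.quot f
  have ha0 : a ≠ 0 := by
    rw [← hab]
    exact mul_ne_zero (by simpa using hf) hb0
  obtain ⟨ca, Pa, hca, hPa, hPam, hea⟩ := H.scale' ha ha0
  obtain ⟨cb, Pb, hcb, hPb, hPbm, heb⟩ := H.scale' hb hb0
  have key : ((algebraMap K F (cb / ca) * f : F) : LaurentSeries K) * inc A Pb = inc A Pa := by
    have h1 : ((algebraMap K F (cb / ca) * f : F) : LaurentSeries K)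
        = algebraMap K (LaurentSeries K) (cb / ca) * (f : LaurentSeries K) := rfl
    have h2 : algebraMap K (LaurentSeries K) ca ≠ 0 := by simpa using hca
    rw [h1, map_div₀]
    rw [heb, hea] at hab
    field_simp
    linear_combination hab
  have hmem : algebraMap K F (cb / ca) * f ∈ gaussSubring A F :=
    ⟨Pa, Pb, H.le _ hPam, H.le _ hPbm, hPb, key⟩
  refine ⟨cb / ca, hmem, div_ne_zero hcb hca, fun h0 => ?_⟩
  have := rho_spec (A := A) (F := F) ⟨_, hmem⟩ hPb key
  rw [h0, zero_mul] at this
  exact hPa this.symm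

end Att

/-- The `m`-th coefficient of `z * D`, as a linear form on `F`. -/
def coeffForm (D : LaurentSeries K) (m : ℤ) : F →ₗ[K] K where
  toFun z := ((z : LaurentSeries K) * D).coeff m
  map_add' y z := by
    push_cast
    rw [add_mul, HahnSeries.coeff_add]
  map_smul' c z := by
    rw [Algebra.smul_def]
    show (algebraMap K (LaurentSeries K) c * (z : LaurentSeries K) * D).coeff m = _
    rw [mul_assoc, coeff_algebraMap_mul, RingHom.id_apply, smul_eq_mul]

@[simp] theorem coeffForm_apply (D : LaurentSeries K) (m : ℤ) (z : F) :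
    coeffForm (F := F) D m z = ((z : LaurentSeries K) * D).coeff m := rfl

namespace Att

variable {AA : Subalgebra K (LaurentSeries K)} (H : Att A F AA)

include H in
/-- the separating functionals for one valuation -/
theorem exists_form (V : Submodule K F) [Module.Finite K V] {ω : LaurentSeries (kk A)}
    (hω : ω ≠ 0) :
    ∃ (Q : LaurentSeries A) (m : ℤ), (ω * red A Q).coeff m ≠ 0 ∧
      ∀ z : gaussSubring A F, (z : F) ∈ V →
        ∃ h : coeffForm (F := F) (inc A Q) m z ∈ A,
          (rho A F z * red A Q).coeff m = IsLocalRing.residue A ⟨_, h⟩ := by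
  obtain ⟨Q, hQ, -, hV⟩ := H.exists_den V
  have hne : ω * red A Q ≠ 0 := mul_ne_zero hω hQ
  obtain ⟨m, hm⟩ : ∃ m, (ω * red A Q).coeff m ≠ 0 := by
    by_contra hcon
    push Not at hcon
    exact hne (HahnSeries.ext (funext hcon))
  refine ⟨Q, m, hm, fun z hz => ?_⟩
  obtain ⟨P, hP⟩ := H.exists_inc_eq z.2 (hV z hz)
  have h1 : coeffForm (F := F) (inc A Q) m z = (P.coeff m : K) := by
    rw [coeffForm_apply, hP, inc_coeff]
  refine ⟨by rw [h1]; exact (P.coeff m).2, ?_⟩
  rw [rho_spec z hQ hP, red_coeff]
  congr 1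
  exact Subtype.ext h1.symm

end Att

end Fermat.Agent.S34.Nodal.Inst.R

end
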