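/-
C1 nodal core, instantiation, block R (owner helper94): `EchelonData` for `Inst.OO`, `Inst.red2`.

There are two non defeq `k`-module structures on `k((t)) × k((t))` (the one of `HahnSeries`, used by
`Inst.YY`, and the one coming from the algebra structure, used by `Nodal.Setup`).  They are equal
(`module_eq_algebra`); `Att.echelonData` is for the first one, `Att.echelonDataAlg` for the second.
-/
import Fermat.Agent.S34.Nodal.Inst.R.Att
import Fermat.Agent.S34.Nodal.Inst.Contracts

set_option autoImplicit false

noncomputable section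

namespace Fermat.Agent.S34.Nodal.Inst.R

open ModularCurve Fermat.Agent.S18.Vert Module

variable {K : Type*} [Field K] {A : ValuationSubring K}
variable {F : IntermediateField K (LaurentSeries K)} (w : F ≃ₐ[K] F)

/-- the module structure of `HahnSeries` -/
theorem smul_eq_C_mul (c : kk A) (ω : Om A) :
    c • ω = (HahnSeries.C c * ω.1, HahnSeries.C c * ω.2) := by
  apply Prod.ext
  · rw [Prod.smul_fst, HahnSeries.C_mul_eq_smul]
  · rw [Prod.smul_snd]
    show c • ω.2 = HahnSeries.C c * ω.2
    rw [HahnSeries.C_mul_eq_smul]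

/-- The two module structures on `k((t)) × k((t))` are equal. -/
theorem module_eq_algebra :
    (inferInstance : Module (kk A) (Om A)) = (Algebra.toModule : Module (kk A) (Om A)) := by
  apply Module.ext
  funext c ω
  refine (smul_eq_C_mul c ω).trans ?_
  refine Eq.trans ?_ (@Algebra.smul_def (kk A) (Om A) _ _ _ c ω).symm
  rw [Prod.algebraMap_apply, algebraMap_laurentSeries_eq_single]
  rfl

theorem coeff_C_mul' {k : Type*} [Field k] (c : k) (f : LaurentSeries k) (m : ℤ) :
    (HahnSeries.C c * f).coeff m = c * f.coeff m := by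
  rw [HahnSeries.C_apply, HahnSeries.coeff_single_mul, sub_zero]

/-- The `m`-th coefficient of `ω.1 * D`, as a linear form on `k((t)) × k((t))`. -/
def formFst (D : LaurentSeries (kk A)) (m : ℤ) : Om A →ₗ[kk A] kk A where
  toFun ω := (ω.1 * D).coeff m
  map_add' y z := by rw [Prod.fst_add, add_mul, HahnSeries.coeff_add]
  map_smul' c z := by
    rw [smul_eq_C_mul c z, mul_assoc, coeff_C_mul', RingHom.id_apply, smul_eq_mul]

/-- The `m`-th coefficient of `ω.2 * D`, as a linear form on `k((t)) × k((t))`. -/
def formSnd (D : LaurentSeries (kk A)) (m : ℤ) : Om A →ₗ[kk A] kk A where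
  toFun ω := (ω.2 * D).coeff m
  map_add' y z := by rw [Prod.snd_add, add_mul, HahnSeries.coeff_add]
  map_smul' c z := by
    rw [smul_eq_C_mul c z, mul_assoc, coeff_C_mul', RingHom.id_apply, smul_eq_mul]

theorem algebraMap_mem_OO (a : A) : algebraMap K F (a : K) ∈ OO A F w :=
  ⟨algebraMap_mem_gauss A F a, by
    show w (algebraMap K F (a : K)) ∈ gaussSubring A F
    rw [w.commutes]
    exact algebraMap_mem_gauss A F a⟩

theorem rho_algebraMap' (a : A) :
    rho A F ⟨algebraMap K F (a : K), algebraMap_mem_gauss A F a⟩ =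
      HahnSeries.C (IsLocalRing.residue A a) := by
  rw [rho_algebraMap, algebraMap_laurentSeries_eq_single]
  rfl

theorem red2_algebraMap (a : A) :
    red2 A F w ⟨algebraMap K F (a : K), algebraMap_mem_OO w a⟩ =
      (HahnSeries.C (IsLocalRing.residue A a), HahnSeries.C (IsLocalRing.residue A a)) := by
  apply Prod.ext
  · rw [red2_fst]
    exact rho_algebraMap' a
  · rw [red2_snd]
    have e : (⟨w (algebraMap K F (a : K)), (algebraMap_mem_OO w a).2⟩ : gaussSubring A F) =
        ⟨algebraMap K F (a : K), algebraMap_mem_gauss A F a⟩ := Subtype.ext (w.commutes _)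
    show rho A F ⟨w (algebraMap K F (a : K)), _⟩ = _
    rw [e]
    exact rho_algebraMap' a

/-- multiplication of a Gauss integral element by a constant of `A` -/
theorem const_mul_mem_gauss {c : K} (hc : c ∈ A) {f : F} (hf : f ∈ gaussSubring A F) :
    algebraMap K F c * f ∈ gaussSubring A F :=
  (gaussSubring A F).mul_mem (algebraMap_mem_gauss A F ⟨c, hc⟩) hf

/-- **The echelon data of the pair of Gauss valuations.** -/
def Att.echelonData {AA : Subalgebra K (LaurentSeries K)} (H : Att A F AA) :
    EchelonData K (kk A) (OO A F w) (red2 A F w) where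
  A := A
  res := IsLocalRing.residue A
  res_surj := IsLocalRing.residue_surjective
  const_mem := algebraMap_mem_OO w
  red_smul := by
    intro a y
    rw [map_mul, red2_algebraMap, smul_eq_C_mul]
    rfl
  norm := by
    intro f hf
    have hwf : w f ≠ 0 := (map_ne_zero_iff _ w.injective).mpr hf
    obtain ⟨c₁, h₁, hc₁, hr₁⟩ := H.exists_scaling hf
    obtain ⟨c₂, h₂, hc₂, hr₂⟩ := H.exists_scaling hwf
    have hw : ∀ c : K, w (algebraMap K F c * f) = algebraMap K F c * w f := by
      intro c
      rw [map_mul, w.commutes]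
    rcases A.mem_or_inv_mem (c₁ / c₂) with h | h
    · have hm : algebraMap K F c₁ * f ∈ OO A F w := by
        refine ⟨h₁, ?_⟩
        show w (algebraMap K F c₁ * f) ∈ gaussSubring A F
        have : w (algebraMap K F c₁ * f) = algebraMap K F (c₁ / c₂) * (algebraMap K F c₂ * w f) := by
          rw [hw, ← mul_assoc, ← map_mul, div_mul_cancel₀ _ hc₂]
        rw [this]
        exact const_mul_mem_gauss h h₂
      refine ⟨c₁, hm, fun h0 => hr₁ ?_⟩
      have := congrArg Prod.fst h0
      rwa [red2_fst] at this
    · rw [inv_div] at h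
      have hm : algebraMap K F c₂ * f ∈ OO A F w := by
        refine ⟨?_, ?_⟩
        · have : algebraMap K F c₂ * f = algebraMap K F (c₂ / c₁) * (algebraMap K F c₁ * f) := by
            rw [← mul_assoc, ← map_mul, div_mul_cancel₀ _ hc₁]
          rw [this]
          exact const_mul_mem_gauss h h₁
        · show w (algebraMap K F c₂ * f) ∈ gaussSubring A F
          rw [hw]
          exact h₂
      refine ⟨c₂, hm, fun h0 => hr₂ ?_⟩
      have h3 := congrArg Prod.snd h0
      rw [red2_snd] at h3
      have e : (⟨w (algebraMap K F c₂ * f), hm.2⟩ : gaussSubring A F) =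
          ⟨algebraMap K F c₂ * w f, h₂⟩ := Subtype.ext (hw c₂)
      rw [← e]
      exact h3
  sep := by
    intro V _ ω hω
    by_cases h1 : ω.1 = 0
    · have h2 : ω.2 ≠ 0 := fun h2 => hω (Prod.ext h1 h2)
      have : Module.Finite K (V.map w.toLinearMap) := inferInstance
      obtain ⟨Q, m, hm, hz⟩ := H.exists_form (V.map w.toLinearMap) h2
      refine ⟨(coeffForm (inc A Q) m).comp w.toLinearMap, formSnd (red A Q) m,
        fun z hzV => ?_, hm⟩
      exact hz ⟨w z, z.2.2⟩ ⟨z, hzV, rfl⟩
    · obtain ⟨Q, m, hm, hz⟩ := H.exists_form V h1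
      refine ⟨coeffForm (inc A Q) m, formFst (red A Q) m, fun z hzV => ?_, hm⟩
      exact hz ⟨z, z.2.1⟩ hzV

/-- The same data for the module structure coming from the algebra structure (the one used by
`Nodal.Setup`). -/
def Att.echelonDataAlg {AA : Subalgebra K (LaurentSeries K)} (H : Att A F AA) :
    @EchelonData K _ (kk A) _ F _ _ (Om A) _ Algebra.toModule (OO A F w) (red2 A F w) :=
  module_eq_algebra (A := A) ▸ H.echelonData w

end Fermat.Agent.S34.Nodal.Inst.R

end
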