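/-
C1 nodal core, instantiation, block R (owner helper94): the field `riem` of `Inst.Contracts`, in the
parametric setting, from the hypothesis `Att` (Gauss norms are attained on a subalgebra generating
`F`) and Riemann's theorem on the generic fibre.
-/
import Fermat.Agent.S34.Nodal.Inst.R.Echelon
import Fermat.Agent.S34.Nodal.Riem

set_option autoImplicit false

noncomputable section

namespace Fermat.Agent.S34.Nodal.Inst.R

open ModularCurve Fermat.Agent.S18.Vert Module AlgebraicCurve Fermat.Agent.S24.FF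
  Fermat.Agent.S27.Riemann

variable {K : Type*} [Field K] [CharZero K] [IsAlgClosed K] {A : ValuationSubring K}
variable {F : IntermediateField K (LaurentSeries K)} [IsFF1 K F] (w : F ≃ₐ[K] F)

omit [IsAlgClosed K] in
theorem isIntegral_iff_places {x : F} (hx : Transcendental K x) (z : F) :
    IsIntegral (Algebra.adjoin K {x}) z ↔ ∀ v : Place K F, 0 ≤ v.ord x → 0 ≤ v.ord z := by
  have hf : FiniteDimensional (IntermediateField.adjoin K {x}) F := IsFF1.finite _ hx
  rw [← S18.mem_chart_top_iff_isIntegral, S18.mem_chart_top_iff_places hx]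

omit [IsAlgClosed K] in
theorem isIntegral_inv_iff_places {x : F} (hx : Transcendental K x) (z : F) :
    IsIntegral (Algebra.adjoin K {x⁻¹}) z ↔ ∀ v : Place K F, v.ord x ≤ 0 → 0 ≤ v.ord z := by
  have hx' : Transcendental K x⁻¹ := by
    intro h
    apply hx
    have := h.inv
    rwa [inv_inv] at this
  rw [isIntegral_iff_places hx']
  simp only [Place.ord_inv, Left.nonneg_neg_iff]

variable {w}

/-- `HH` is the unit ball of a Riemann-Roch space. -/
theorem mem_HH_iff {x : F} (hx : Transcendental K x) (hxinv : x⁻¹ ∈ OO A F w) {n : ℕ} (hn : 0 < n)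
    {u : OO A F w} (hu0 : (u : F) ≠ 0) (hkum : ∀ v : Place K F, (n : ℤ) ∣ v.ord (u : F)) (e : ℕ)
    (y : OO A F w) :
    y ∈ HH A F w x n u e ↔ (y : F) ∈ riemannRochSpace (kumDiv (K := K) n (u : F) x e) := by
  have hx0 : x ≠ 0 := by
    rintro rfl
    exact hx isAlgebraic_zero
  rw [mem_riemannRochSpace_kumDiv hn hu0 hx0 hkum]
  have h1 : (y : F) ^ n * u ∈ OO A F w := (OO A F w).mul_mem ((OO A F w).pow_mem y.2 _) u.2
  have h2 : (x⁻¹ ^ e * (y : F)) ^ n * u ∈ OO A F w :=
    (OO A F w).mul_mem ((OO A F w).pow_mem ((OO A F w).mul_mem ((OO A F w).pow_mem hxinv _) y.2) _)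
      u.2
  show ((y : F) ^ n * u ∈ chart A F w x ∧ (x⁻¹ ^ e * (y : F)) ^ n * u ∈ chart A F w x⁻¹) ↔ _
  rw [mem_chart, mem_chart, isIntegral_iff_places hx, isIntegral_inv_iff_places hx]
  exact ⟨fun h => ⟨h.1.2, h.2.2⟩, fun h => ⟨⟨h1, h.1⟩, ⟨h2, h.2⟩⟩⟩

/-- `YY` is the reduction of the unit ball of a Riemann-Roch space. -/
theorem YY_eq_redSpace {AA : Subalgebra K (LaurentSeries K)} (H : Att A F AA) {x : F}
    (hx : Transcendental K x) (hxinv : x⁻¹ ∈ OO A F w) {n : ℕ} (hn : 0 < n)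
    {u : OO A F w} (hu0 : (u : F) ≠ 0) (hkum : ∀ v : Place K F, (n : ℤ) ∣ v.ord (u : F)) (e : ℕ) :
    YY A F w x n u e
      = (H.echelonData w).redSpace (riemannRochSpace (kumDiv (K := K) n (u : F) x e)) := by
  have hset : red2 A F w '' HH A F w x n u e
      = ((H.echelonData w).redSpace (riemannRochSpace (kumDiv (K := K) n (u : F) x e)) :
        Set (Om A)) := by
    ext ω
    constructor
    · rintro ⟨y, hy, rfl⟩
      exact ⟨y, (mem_HH_iff hx hxinv hn hu0 hkum e y).mp hy, rfl⟩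
    · rintro ⟨y, hy, rfl⟩
      exact ⟨y, (mem_HH_iff hx hxinv hn hu0 hkum e y).mpr hy, rfl⟩
  rw [YY, hset, Submodule.span_eq]

/-- The dimension of `YY`. -/
theorem finite_and_finrank_YY {AA : Subalgebra K (LaurentSeries K)} (H : Att A F AA) {x : F}
    (hx : Transcendental K x) (hxinv : x⁻¹ ∈ OO A F w) {n : ℕ} (hn : 0 < n)
    {u : OO A F w} (hu0 : (u : F) ≠ 0) (hkum : ∀ v : Place K F, (n : ℤ) ∣ v.ord (u : F)) (e : ℕ) :
    Module.Finite (kk A) (YY A F w x n u e) ∧ finrank (kk A) (YY A F w x n u e)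
      = finrank K (riemannRochSpace (kumDiv (K := K) n (u : F) x e)) := by
  have hfin : Module.Finite K (riemannRochSpace (kumDiv (K := K) n (u : F) x e)) :=
    finite_L ⟨x, hx⟩ _
  rw [YY_eq_redSpace H hx hxinv hn hu0 hkum e]
  exact ⟨(H.echelonData w).finite_redSpace _, (H.echelonData w).finrank_redSpace _⟩

/-- **The field `riem` of `Inst.Contracts`** (parametric form; `red2 u = 1` is only used through
`u ≠ 0`). -/
theorem riem_of_att {AA : Subalgebra K (LaurentSeries K)} (H : Att A F AA) {x : F}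
    (hx : Transcendental K x) (hxinv : x⁻¹ ∈ OO A F w) {n : ℕ} (hn : 0 < n)
    (u : OO A F w) (hkum : ∀ v : Place K F, (n : ℤ) ∣ v.ord (u : F)) (hu0 : (u : F) ≠ 0) :
    ∃ e₀ : ℕ, ∀ e, e₀ ≤ e →
      Module.Finite (kk A) (YY A F w x n 1 e) ∧ Module.Finite (kk A) (YY A F w x n u e) ∧
        finrank (kk A) (YY A F w x n 1 e) ≤ finrank (kk A) (YY A F w x n u e) := by
  obtain ⟨e₀, he₀⟩ := exists_finrank_kumDiv_eq (K := K) hx
  refine ⟨e₀, fun e he => ?_⟩
  have hkum1 : ∀ v : Place K F, (n : ℤ) ∣ v.ord (((1 : OO A F w) : OO A F w) : F) := by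
    intro v
    rw [Subring.coe_one, Place.ord_one]
    exact dvd_zero _
  have h10 : (((1 : OO A F w) : OO A F w) : F) ≠ 0 := by
    rw [Subring.coe_one]
    exact one_ne_zero
  obtain ⟨f1, d1⟩ := finite_and_finrank_YY H hx hxinv hn h10 hkum1 e
  obtain ⟨fu, du⟩ := finite_and_finrank_YY H hx hxinv hn hu0 hkum e
  refine ⟨f1, fu, le_of_eq ?_⟩
  have e1 : finrank (kk A) (YY A F w x n 1 e)
      = finrank (kk A) (YY A F w x n ((1 : OO A F w) : F) e) := rfl
  rw [e1, d1, du]
  exact he₀ e he n hn _ _ hkum1 hkum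

omit [CharZero K] [IsAlgClosed K] [IsFF1 K F] in
theorem ne_zero_of_red2_eq_one {u : OO A F w} (hu : red2 A F w u = 1) : (u : F) ≠ 0 := by
  intro h
  have : u = 0 := Subtype.ext h
  rw [this, map_zero] at hu
  exact zero_ne_one hu

end Fermat.Agent.S34.Nodal.Inst.R

end
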