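/-
C1 nodal core, instantiation (owner helper94): `F` is algebraic over `K[x]` and finite over `K(x)`
for a transcendental `x`.
-/
import Fermat.Agent.S34.Nodal.Inst.R.Riem

set_option autoImplicit false

noncomputable section

namespace Fermat.Agent.S34.Nodal.Inst.R

open ModularCurve AlgebraicCurve Fermat.Agent.S24.FF

variable {K : Type*} [Field K] {F : Type*} [Field F] [Algebra K F] [IsFF1 K F]

theorem finiteDimensional_adjoin {x : F} (hx : Transcendental K x) :
    FiniteDimensional (IntermediateField.adjoin K {x}) F := IsFF1.finite _ hx

theorem isAlgebraic_intermediateField_adjoin {x : F} (hx : Transcendental K x) :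
    Algebra.IsAlgebraic (IntermediateField.adjoin K {x}) F := by
  have := finiteDimensional_adjoin (K := K) hx
  exact Algebra.IsAlgebraic.of_finite _ _

open scoped IntermediateField.algebraAdjoinAdjoin in
/-- `F` is algebraic over `K[x]`. -/
theorem isAlgebraic_algebra_adjoin {x : F} (hx : Transcendental K x) :
    Algebra.IsAlgebraic (Algebra.adjoin K {x}) F := by
  have h := isAlgebraic_intermediateField_adjoin (K := K) hx
  exact (IsFractionRing.comap_isAlgebraic_iff (A := Algebra.adjoin K {x})
    (K := IntermediateField.adjoin K {x}) (C := F)).mpr h

end Fermat.Agent.S34.Nodal.Inst.R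

end
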