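/-
C1 nodal core, instantiation, block K5 (owner helper94): the field `hdiv` of `Inst.Contracts`, from
the hypothesis `Att` (Gauss norms are attained).

An element `d` of `OO` with `red2 d = 0` is a constant of the maximal ideal of `A` times an element
of `OO`.
-/
import Fermat.Agent.S34.Nodal.Inst.R.Echelon

set_option autoImplicit false

noncomputable section

namespace Fermat.Agent.S34.Nodal.Inst.R

open ModularCurve Fermat.Agent.S18.Vert

variable {K : Type*} [Field K] {A : ValuationSubring K}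
variable {F : IntermediateField K (LaurentSeries K)} {w : F ≃ₐ[K] F}

theorem isIntegral_algebraMap_of_subalgebra (S : Subalgebra K F) (c : K) :
    IsIntegral S (algebraMap K F c) := by
  have : algebraMap K F c = algebraMap S F (algebraMap K S c) := rfl
  rw [this]
  exact isIntegral_algebraMap

/-- An element of `OO` with zero reduction is a constant of the maximal ideal times an element of
`OO` (with nonzero reduction). -/
theorem Att.exists_const_mul {AA : Subalgebra K (LaurentSeries K)} (H : Att A F AA)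
    {d : OO A F w} (hd0 : d ≠ 0) (hd : red2 A F w d = 0) :
    ∃ (a : A) (z : OO A F w), IsLocalRing.residue A a = 0 ∧ (a : K) ≠ 0 ∧ red2 A F w z ≠ 0 ∧
      (z : F) = algebraMap K F (a : K)⁻¹ * d ∧
        d = ⟨algebraMap K F (a : K), algebraMap_mem_OO w a⟩ * z := by
  have hdF : (d : F) ≠ 0 := fun h => hd0 (Subtype.ext h)
  obtain ⟨c, hm, hc⟩ := (H.echelonData w).norm (d : F) hdF
  have hc0 : c ≠ 0 := by
    rintro rfl
    apply hc
    have : (⟨algebraMap K F 0 * (d : F), hm⟩ : OO A F w) = 0 :=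
      Subtype.ext (by
        show algebraMap K F 0 * (d : F) = 0
        rw [map_zero, zero_mul])
    rw [this, map_zero]
  have hcA : c ∉ A := by
    intro hcA
    apply hc
    have : (⟨algebraMap K F c * (d : F), hm⟩ : OO A F w)
        = ⟨algebraMap K F ((⟨c, hcA⟩ : A) : K), algebraMap_mem_OO w ⟨c, hcA⟩⟩ * d := rfl
    rw [this, map_mul, hd, mul_zero]
  have hci : c⁻¹ ∈ A := (A.mem_or_inv_mem c).resolve_left hcA
  have hres : IsLocalRing.residue A ⟨c⁻¹, hci⟩ = 0 := by
    rw [IsLocalRing.residue_eq_zero_iff, IsLocalRing.mem_maximalIdeal, mem_nonunits_iff]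
    intro hu
    obtain ⟨b, hb⟩ := isUnit_iff_exists_inv.mp hu
    apply hcA
    have hb' : c⁻¹ * (b : K) = 1 := congrArg Subtype.val hb
    have : (b : K) = c := by
      field_simp at hb'
      exact hb'
    rw [← this]
    exact b.2
  refine ⟨⟨c⁻¹, hci⟩, ⟨_, hm⟩, hres, inv_ne_zero hc0, hc, ?_, ?_⟩
  · show algebraMap K F c * (d : F) = algebraMap K F (c⁻¹)⁻¹ * d
    rw [inv_inv]
  · apply Subtype.ext
    show (d : F) = algebraMap K F c⁻¹ * (algebraMap K F c * (d : F))
    rw [← mul_assoc, ← map_mul, inv_mul_cancel₀ hc0, map_one, one_mul]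

/-- **The field `hdiv` of `Inst.Contracts`.** -/
theorem hdiv_of_att {AA : Subalgebra K (LaurentSeries K)} (H : Att A F AA) (x : F) :
    ∀ d : OO A F w, (d : F) ∈ chartMid A F w x → red2 A F w d = 0 →
      ∃ p z : OO A F w, (p : F) ∈ chart A F w x ∧ (p : F) ∈ chart A F w x⁻¹ ∧ red2 A F w p = 0 ∧
        (z : F) ∈ chartMid A F w x ∧ d = p * z := by
  intro d hdm hd
  by_cases hd0 : d = 0
  · refine ⟨0, 0, (chart A F w x).zero_mem, (chart A F w x⁻¹).zero_mem, map_zero _,
      (chartMid A F w x).zero_mem, ?_⟩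
    rw [hd0, mul_zero]
  obtain ⟨a, z, hres, -, -, hz, hdz⟩ := H.exists_const_mul hd0 hd
  refine ⟨⟨algebraMap K F (a : K), algebraMap_mem_OO w a⟩, z,
    ⟨algebraMap_mem_OO w a, isIntegral_algebraMap_of_subalgebra _ _⟩,
    ⟨algebraMap_mem_OO w a, isIntegral_algebraMap_of_subalgebra _ _⟩, ?_, ⟨z.2, ?_⟩, hdz⟩
  · rw [red2_algebraMap, hres, map_zero]
    rfl
  · show IsIntegral (Algebra.adjoin K {x, x⁻¹}) (z : F)
    rw [hz]
    exact IsIntegral.mul (isIntegral_algebraMap_of_subalgebra (Algebra.adjoin K {x, x⁻¹}) _) hdm.2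

end Fermat.Agent.S34.Nodal.Inst.R

end
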