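/-
C1 nodal core, instantiation, block K4 (owner helper94): the field `exhaust` of `Inst.Contracts`.

Pure algebra: if `b` is integral over `K[x]` then `x⁻¹ ^ e * b` is integral over `K[x⁻¹]` for
some `e`.
-/
import Fermat.Agent.S34.Nodal.Inst.Contracts

set_option autoImplicit false

noncomputable section

namespace Fermat.Agent.S34.Nodal.Inst.R

open ModularCurve Fermat.Agent.S18.Vert Polynomial

section Algebra

variable {K L : Type*} [Field K] [Field L] [Algebra K L]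

/-- Elements of `K[x]` have bounded poles. -/
theorem exists_inv_pow_mul_mem_adjoin {x : L} (hx : x ≠ 0) {a : L}
    (ha : a ∈ Algebra.adjoin K {x}) :
    ∃ d : ℕ, ∀ d', d ≤ d' → x⁻¹ ^ d' * a ∈ Algebra.adjoin K {x⁻¹} := by
  have hs : x⁻¹ ∈ Algebra.adjoin K {x⁻¹} := Algebra.self_mem_adjoin_singleton K x⁻¹
  induction ha using Algebra.adjoin_induction with
  | mem y hy =>
    have hyx : y = x := hy
    refine ⟨1, fun d' hd' => ?_⟩
    obtain ⟨m, rfl⟩ := Nat.exists_eq_add_of_le hd'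
    have : x⁻¹ ^ (1 + m) * y = x⁻¹ ^ m := by
      rw [hyx, pow_add, pow_one, mul_right_comm, inv_mul_cancel₀ hx, one_mul]
    rw [this]
    exact Subalgebra.pow_mem _ hs _
  | algebraMap c =>
    exact ⟨0, fun d' _ => Subalgebra.mul_mem _ (Subalgebra.pow_mem _ hs _)
      (Subalgebra.algebraMap_mem _ c)⟩
  | add y z _ _ hy hz =>
    obtain ⟨d₁, h₁⟩ := hy
    obtain ⟨d₂, h₂⟩ := hz
    refine ⟨max d₁ d₂, fun d' hd' => ?_⟩
    rw [mul_add]
    exact Subalgebra.add_mem _ (h₁ d' (le_trans (le_max_left _ _) hd'))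
      (h₂ d' (le_trans (le_max_right _ _) hd'))
  | mul y z _ _ hy hz =>
    obtain ⟨d₁, h₁⟩ := hy
    obtain ⟨d₂, h₂⟩ := hz
    refine ⟨d₁ + d₂, fun d' hd' => ?_⟩
    obtain ⟨m, rfl⟩ := Nat.exists_eq_add_of_le hd'
    have : x⁻¹ ^ (d₁ + d₂ + m) * (y * z) = (x⁻¹ ^ d₁ * y) * (x⁻¹ ^ (d₂ + m) * z) := by
      rw [add_assoc, pow_add]
      ring
    rw [this]
    exact Subalgebra.mul_mem _ (h₁ _ le_rfl) (h₂ _ (Nat.le_add_right _ _))

/-- Scaling the roots of a monic polynomial to make the coefficients lie in a subalgebra. -/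
theorem isIntegral_mul_of_coeff_mul_mem (S : Subalgebra K L) {P : L[X]} (hP : P.Monic) {s b : L}
    (hs : s ∈ S) (hc : ∀ i, s * P.coeff i ∈ S) (hb : P.eval b = 0) : IsIntegral S (s * b) := by
  have hQm : (scaleRoots P s).Monic := (monic_scaleRoots_iff _).mpr hP
  have hQb : (scaleRoots P s).eval (s * b) = 0 := by
    have := scaleRoots_eval₂_eq_zero (RingHom.id L) (p := P) (r := b) (s := s)
      (by rw [eval₂_id]; exact hb)
    rw [eval₂_id] at this
    exact this
  have hmem : ∀ i, (scaleRoots P s).coeff i ∈ S := by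
    intro i
    rw [coeff_scaleRoots]
    rcases lt_trichotomy i P.natDegree with hi | hi | hi
    · obtain ⟨m, hm⟩ : ∃ m, P.natDegree - i = m + 1 := ⟨P.natDegree - i - 1, by omega⟩
      have h1 : P.coeff i * s ^ (P.natDegree - i) = (s * P.coeff i) * s ^ m := by
        rw [hm, pow_succ]
        ring
      rw [h1]
      exact S.mul_mem (hc i) (S.pow_mem hs _)
    · have : P.coeff i = 1 := by rw [hi]; exact hP.coeff_natDegree
      rw [this, hi, Nat.sub_self, pow_zero, mul_one]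
      exact S.one_mem
    · rw [coeff_eq_zero_of_natDegree_lt hi, zero_mul]
      exact S.zero_mem
  have hlift : scaleRoots P s ∈ lifts (algebraMap S L) := by
    rw [lifts_iff_coeff_lifts]
    intro i
    exact ⟨⟨_, hmem i⟩, rfl⟩
  obtain ⟨R, hR, -, hRm⟩ := lifts_and_natDegree_eq_and_monic hlift hQm
  refine ⟨R, hRm, ?_⟩
  rw [← eval_map, hR]
  exact hQb

/-- If `b` is integral over `K[x]` then `x⁻¹ ^ e * b` is integral over `K[x⁻¹]` for some `e`. -/
theorem exists_isIntegral_inv_pow_mul {x : L} (hx : x ≠ 0) {b : L}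
    (hb : IsIntegral (Algebra.adjoin K {x}) b) :
    ∃ e : ℕ, IsIntegral (Algebra.adjoin K {x⁻¹}) (x⁻¹ ^ e * b) := by
  classical
  obtain ⟨p, hp, hpb⟩ := hb
  have hex : ∀ i : ℕ, ∃ d : ℕ, ∀ d', d ≤ d' →
      x⁻¹ ^ d' * (p.map (algebraMap (Algebra.adjoin K {x}) L)).coeff i
        ∈ Algebra.adjoin K {x⁻¹} := by
    intro i
    rw [coeff_map]
    exact exists_inv_pow_mul_mem_adjoin hx (p.coeff i).2
  choose d hd using hex
  obtain ⟨e, he⟩ : ∃ e : ℕ, ∀ i, i ≤ p.natDegree → d i ≤ e :=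
    ⟨(Finset.range (p.natDegree + 1)).sup d, fun i hi =>
      Finset.le_sup (f := d) (Finset.mem_range.mpr (Nat.lt_succ_of_le hi))⟩
  refine ⟨e, ?_⟩
  have hs : x⁻¹ ^ e ∈ Algebra.adjoin K {x⁻¹} :=
    Subalgebra.pow_mem _ (Algebra.self_mem_adjoin_singleton K x⁻¹) _
  have hev : (p.map (algebraMap (Algebra.adjoin K {x}) L)).eval b = 0 := by
    rw [eval_map]; exact hpb
  refine isIntegral_mul_of_coeff_mul_mem _ (hp.map (algebraMap (Algebra.adjoin K {x}) L))
    hs (fun i => ?_) hev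
  by_cases hi : i ≤ p.natDegree
  · exact hd i _ (he i hi)
  · rw [coeff_map, coeff_eq_zero_of_natDegree_lt (not_le.mp hi), map_zero, mul_zero]
    exact Subalgebra.zero_mem _

end Algebra

variable {K : Type*} [Field K] {A : ValuationSubring K}
variable {F : IntermediateField K (LaurentSeries K)} {w : F ≃ₐ[K] F}

/-- **The field `exhaust` of `Inst.Contracts`.** -/
theorem exhaust_of_inv_mem {x : F} (hx : x ≠ 0) (hxinv : x⁻¹ ∈ OO A F w) :
    ∀ b ∈ chart A F w x, ∃ e : ℕ, x⁻¹ ^ e * b ∈ chart A F w x⁻¹ := by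
  intro b hb
  obtain ⟨e, he⟩ := exists_isIntegral_inv_pow_mul (K := K) hx hb.2
  exact ⟨e, (OO A F w).mul_mem ((OO A F w).pow_mem hxinv _) hb.1, he⟩

end Fermat.Agent.S34.Nodal.Inst.R

end
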