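/-
C1 nodal core, instantiation (owner helper94): the coordinate `x = al x' * be x'` is nonzero and
transcendental as soon as the expansion of `x'` has nonzero order.
-/
import Fermat.Agent.S34.Nodal.Inst.Kron.Basic
import Fermat.Agent.S18.Base.Coord
import Fermat.Agent.S24.B.Laurent

set_option autoImplicit false

noncomputable section

namespace Fermat.Agent.S34.Nodal.Inst.R

open ModularCurve Fermat.Agent.S18.Vert Fermat.Agent.S34.Nodal.Inst.Kron

variable {K : Type*} [Field K]
variable {F F' : IntermediateField K (LaurentSeries K)} {w : F ≃ₐ[K] F} {q : ℕ} [NeZero q]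

/-- An element of `F ⊆ K((t))` whose expansion has nonzero order is transcendental. -/
theorem transcendental_of_order_ne_zero {x : F} (hx : (x : LaurentSeries K).order ≠ 0) :
    Transcendental K x :=
  fun h => S18.Coord.transcendental_of_order_ne_zero hx (IsAlgebraic.algHom F.val h)

theorem order_al_mul_be (D : Deg F F' w q) (x' : F') :
    ((D.al x' * D.be x' : F) : LaurentSeries K).order
      = (1 + (q : ℤ)) * (x' : LaurentSeries K).order := by
  have h1 : ((D.al x' * D.be x' : F) : LaurentSeries K)
      = (x' : LaurentSeries K) * qExpand K q (x' : LaurentSeries K) := by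
    rw [← D.coe_be x']
    conv_rhs => rw [← D.coe_al x']
    rfl
  rw [h1]
  by_cases h0 : (x' : LaurentSeries K) = 0
  · rw [h0, zero_mul, HahnSeries.order_zero, mul_zero]
  · have h2 : qExpand K q (x' : LaurentSeries K) ≠ 0 := by
      intro h
      apply h0
      have h4 : ((D.be x' : F) : LaurentSeries K) = 0 := by rw [D.coe_be, h]
      have h5 : D.be x' = 0 := Subtype.ext h4
      have h6 : x' = 0 := (map_eq_zero_iff _ D.be.toRingHom.injective).mp h5
      rw [h6]
      rfl
    rw [HahnSeries.order_mul h0 h2, S24.B.order_qExpand]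
    ring

theorem al_mul_be_ne_zero (D : Deg F F' w q) {x' : F'} (hx' : x' ≠ 0) :
    D.al x' * D.be x' ≠ 0 :=
  mul_ne_zero ((map_ne_zero_iff _ D.al.toRingHom.injective).mpr hx')
    ((map_ne_zero_iff _ D.be.toRingHom.injective).mpr hx')

/-- `x = al x' * be x'` is transcendental. -/
theorem transcendental_al_mul_be (D : Deg F F' w q) {x' : F'}
    (hx' : (x' : LaurentSeries K).order ≠ 0) : Transcendental K (D.al x' * D.be x') := by
  apply transcendental_of_order_ne_zero
  rw [order_al_mul_be]
  have : (1 + (q : ℤ)) ≠ 0 := by positivity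
  exact mul_ne_zero this hx'

end Fermat.Agent.S34.Nodal.Inst.R

end
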