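/-
C1 nodal core, instantiation, block R (owner helper94): the hypothesis `Att` for the modular function
fields `FN N = modularFunctionFieldBar N` (from `GAL/E/Scaling`, `GAL/E/Bound`), and the field `riem`
of `Inst.Contracts` for them.
-/
import Fermat.Agent.S34.Nodal.Inst.R.Riem
import Fermat.Agent.GAL.E.Scaling
import Fermat.Agent.S24.Export.Ramification

set_option autoImplicit false

noncomputable section

namespace Fermat.Agent.S34.Nodal.Inst.R

open ModularCurve Fermat.Agent.S18.Vert Module AlgebraicCurve Fermat.Agent.S24 Fermat.Agent.S24.FF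
  Fermat.Agent.GAL

/-- The Gauss norm is attained on the algebra generated by the `j(q^d)`, `d ∣ N`. -/
theorem att_modular (A : ValuationSubring Kbar) (ℓ : ℕ) (hℓ : ℓ.Prime) (hA : A.LiesOverPrime ℓ)
    (N : ℕ) :
    Att A (modularFunctionFieldBar N) (Algebra.adjoin Kbar (Formal.genSer N)) where
  le := E.adjoin_le_FN N
  quot := by
    intro f
    obtain ⟨a, b, ha, hb, hb0, h⟩ := E.exists_div_of_mem N f
    exact ⟨a, b, ha, hb, hb0, by rw [h, div_mul_cancel₀ _ hb0]⟩
  scale := by
    intro a ha ha0
    obtain ⟨c, x, hc, hx, h⟩ := E.exists_scaling_of_mem_adjoin A ℓ hℓ hA N a ha ha0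
    exact ⟨c, x, hc, hx, by rw [h, E.scaling_algebraMap]; rfl⟩

/-- **The field `riem` of `Inst.Contracts` for the modular function fields**, with
`IsK = GAL.E.IsKum N n`. -/
theorem riem_modular (A : ValuationSubring Kbar) (ℓ : ℕ) (hℓ : ℓ.Prime) (hA : A.LiesOverPrime ℓ)
    (N : ℕ) [NeZero N] (w : modularFunctionFieldBar N ≃ₐ[Kbar] modularFunctionFieldBar N)
    {x : modularFunctionFieldBar N} (hx : Transcendental Kbar x)
    (hxinv : x⁻¹ ∈ OO A (modularFunctionFieldBar N) w) {n : ℕ} (hn : 0 < n) :
    ∀ u : OO A (modularFunctionFieldBar N) w, E.IsKum N n u →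
      red2 A (modularFunctionFieldBar N) w u = 1 → ∃ e₀ : ℕ, ∀ e, e₀ ≤ e →
        Module.Finite (kk A) (YY A (modularFunctionFieldBar N) w x n 1 e) ∧
        Module.Finite (kk A) (YY A (modularFunctionFieldBar N) w x n u e) ∧
          finrank (kk A) (YY A (modularFunctionFieldBar N) w x n 1 e) ≤
            finrank (kk A) (YY A (modularFunctionFieldBar N) w x n u e) := by
  intro u hK hu
  have : IsFF1 Kbar (modularFunctionFieldBar N) := Export.isFF1 N
  exact riem_of_att (att_modular A ℓ hℓ hA N) hx hxinv hn u hK (ne_zero_of_red2_eq_one hu)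

end Fermat.Agent.S34.Nodal.Inst.R

end
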