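/-
C1 nodal core, instantiation, block R (owner helper94): the hypothesis `Contracts.RiemHyp` of the
final theorem `Contracts.tor`, from `Att` and Riemann's theorem on the generic fibre.
-/
import Fermat.Agent.S34.Nodal.Inst.Assembly
import Fermat.Agent.S34.Nodal.Inst.R.Riem

set_option autoImplicit false

noncomputable section

namespace Fermat.Agent.S34.Nodal.Inst.R

open ModularCurve Fermat.Agent.S18.Vert Module AlgebraicCurve Fermat.Agent.S24.FF
  Fermat.Agent.S27.Riemann

variable {K : Type*} [Field K] [CharZero K] [IsAlgClosed K] {A : ValuationSubring K}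
variable [IsAlgClosed (kk A)]
variable {F F' : IntermediateField K (LaurentSeries K)} [IsFF1 K F] {w : F ≃ₐ[K] F}
variable {x' : F'} {x : F} {n q : ℕ} {IsK : F → Prop}

/-- **Block R**: the Riemann hypothesis of the nodal setting built from the contracts. -/
theorem riemHyp_of_att (Ct : Contracts A F F' w x' x n q IsK)
    {AA : Subalgebra K (LaurentSeries K)} (H : Att A F AA) (hx : Transcendental K x)
    (hK : ∀ u : F, IsK u → ∀ v : Place K F, (n : ℤ) ∣ v.ord u) : Ct.RiemHyp := by
  intro u hu hred
  have C : Ct.setup.ChartsByPlaces K :=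
    Setup.ChartsByPlaces.of_isIntegral (S := Ct.setup) hx (fun _ => Iff.rfl) (fun _ => Iff.rfl)
  exact Setup.riem_of_kummer (S := Ct.setup) (H.echelonDataAlg w) C (u := u) hred (hK u hu)

end Fermat.Agent.S34.Nodal.Inst.R

end
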